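import Mathlib
import Fermat.Agent.S28.Formal

/-!
# S28, package M4b: the mixed relation

For distinct primes `p ≠ p₂`: `j(q) ∈ ℚ(j(q^p), j(q^{p₂}))` inside `ℚ((q))`.

Proof: the minimal polynomial `m` of `j(q)` over `E = ℚ(j(q^p), j(q^{p₂}))` divides both
`Φ_p(X, j(q^p))` and `Φ_{p₂}(X, j(q^{p₂}))`.  Over `ℂ((q))` these split, with `j(q)` as their only
common root, so the cofactor of `X - j(q)` in the first is coprime to the second; hence `m`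
divides `X - j(q)` and has degree one.
-/

set_option autoImplicit false

open IntermediateField Polynomial ModularCurve

noncomputable section

namespace Fermat.Agent.S28.H99

/-- A complex primitive `p`-th root of unity, as a unit. -/
theorem exists_primitiveRoot_unit (p : ℕ) (hp : p ≠ 0) : ∃ ζ : ℂˣ, IsPrimitiveRoot ζ p := by
  have hζ0 : IsPrimitiveRoot (Complex.exp (2 * Real.pi * Complex.I / p)) p :=
    Complex.isPrimitiveRoot_exp p hp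
  refine ⟨(hζ0.isUnit hp).unit, ?_⟩
  rw [← IsPrimitiveRoot.coe_units_iff]
  exact hζ0

section Distinct

variable {A : Type*} [CommRing A]

/-- `j(q^k) ≠ j(c q)` for `k > 1`: compare the coefficients of `q^{-1}`. -/
theorem jS_pow_ne_jS_unit [Nontrivial A] (c : Aˣ) {k : ℕ} (hk : 1 < k) :
    jS A 1 k ≠ jS A c 1 := by
  intro h
  have h1 : (jS A 1 k).coeff (-1 : ℤ) = 0 := by
    refine jS_coeff_of_not_dvd 1 k (by omega) _ ?_
    intro hdvd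
    have h2 : (k : ℤ) ∣ 1 := (dvd_neg).mp hdvd
    have h3 : (k : ℤ) ≤ 1 := Int.le_of_dvd one_pos h2
    omega
  have h2 : (jS A c 1).coeff (-((1 : ℕ) : ℤ)) = ((c⁻¹ : Aˣ) : A) := jS_coeff_neg c 1 one_ne_zero
  rw [Nat.cast_one, ← h, h1] at h2
  exact (c⁻¹).ne_zero h2.symm

/-- `j(q^k) ≠ j(q^l)` if `l ∤ k`: compare the coefficients of `q^{-k}`. -/
theorem jS_pow_ne_jS_pow [Nontrivial A] {k l : ℕ} (hk : k ≠ 0) (hl : l ≠ 0) (hlk : ¬ l ∣ k) :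
    jS A 1 k ≠ jS A 1 l := by
  intro h
  have h1 : (jS A 1 k).coeff (-(k : ℤ)) = ((1⁻¹ : Aˣ) : A) := jS_coeff_neg 1 k hk
  have h2 : (jS A 1 l).coeff (-(k : ℤ)) = 0 := by
    refine jS_coeff_of_not_dvd 1 l hl _ ?_
    intro hdvd
    exact hlk (Int.natCast_dvd_natCast.mp ((dvd_neg).mp hdvd))
  rw [h, h2] at h1
  simp at h1

/-- `j(c q) = j(d q)` forces `c = d`: compare the coefficients of `q^{-1}`. -/
theorem jS_unit_injective {c d : Aˣ} (h : jS A c 1 = jS A d 1) : c = d := by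
  have h1 : (jS A c 1).coeff (-((1 : ℕ) : ℤ)) = ((c⁻¹ : Aˣ) : A) := jS_coeff_neg c 1 one_ne_zero
  have h2 : (jS A d 1).coeff (-((1 : ℕ) : ℤ)) = ((d⁻¹ : Aˣ) : A) := jS_coeff_neg d 1 one_ne_zero
  rw [h, h2] at h1
  exact inv_injective (Units.ext h1).symm

end Distinct

/-- Powers of primitive roots of unity of distinct prime orders only meet in `1`. -/
theorem pow_ne_pow_of_primitiveRoots {M : Type*} [CommMonoid M] {p p₂ : ℕ} (hp : p.Prime)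
    (hp₂ : p₂.Prime) (hne : p ≠ p₂) {ζ ξ : M} (hζ : IsPrimitiveRoot ζ p)
    (hξ : IsPrimitiveRoot ξ p₂) {b : ℕ} (hb0 : b ≠ 0) (hb : b < p) (c : ℕ) : ζ ^ b ≠ ξ ^ c := by
  intro h
  have h1 : (ζ ^ b) ^ p₂ = 1 := by
    rw [h, ← pow_mul, mul_comm, pow_mul, hξ.pow_eq_one, one_pow]
  rw [← pow_mul] at h1
  have h2 : p ∣ b * p₂ := hζ.dvd_of_pow_eq_one _ h1
  rcases (Nat.Prime.dvd_mul hp).mp h2 with h3 | h3
  · exact absurd (Nat.le_of_dvd (Nat.pos_of_ne_zero hb0) h3) (not_le.mpr hb)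
  · exact hne ((Nat.prime_dvd_prime_iff_eq hp hp₂).mp h3)

/-- **The mixed relation.** For distinct primes `p ≠ p₂`,
`j(q) ∈ ℚ(j(q^p), j(q^{p₂}))` inside `ℚ((q))`. -/
theorem jS_mem_adjoin_pair {p p₂ : ℕ} (hp : p.Prime) (hp₂ : p₂.Prime) (hne : p ≠ p₂)
    {Φ Ψ : Polynomial (Polynomial ℤ)} (hΦ : IsModPoly p Φ) (hΨ : IsModPoly p₂ Ψ) :
    jS ℚ 1 1 ∈ IntermediateField.adjoin ℚ ({jS ℚ 1 p, jS ℚ 1 p₂} : Set (LaurentSeries ℚ)) := by
  have hmp : jS ℚ 1 p ∈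
      IntermediateField.adjoin ℚ ({jS ℚ 1 p, jS ℚ 1 p₂} : Set (LaurentSeries ℚ)) :=
    subset_adjoin ℚ _ (Set.mem_insert _ _)
  have hmp₂ : jS ℚ 1 p₂ ∈
      IntermediateField.adjoin ℚ ({jS ℚ 1 p, jS ℚ 1 p₂} : Set (LaurentSeries ℚ)) :=
    subset_adjoin ℚ _ (Set.mem_insert_of_mem _ rfl)
  generalize IntermediateField.adjoin ℚ ({jS ℚ 1 p, jS ℚ 1 p₂} : Set (LaurentSeries ℚ)) = E
    at hmp hmp₂ ⊢
  -- the two modular equations over `E`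
  have hAEmonic : (evalY (⟨jS ℚ 1 p, hmp⟩ : E) Φ).Monic := by
    rw [evalY, coe_mapRingHom]
    exact hΦ.monic.map _
  have hA0 : Polynomial.aeval (jS ℚ 1 1) (evalY (⟨jS ℚ 1 p, hmp⟩ : E) Φ) = 0 := by
    rw [aeval_def, eval₂_eq_eval_map, map_evalY]
    have h := (hΦ.eval_jS hp (1 : ℚˣ) 1 one_ne_zero).1
    simpa using h
  have hB0 : Polynomial.aeval (jS ℚ 1 1) (evalY (⟨jS ℚ 1 p₂, hmp₂⟩ : E) Ψ) = 0 := by
    rw [aeval_def, eval₂_eq_eval_map, map_evalY]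
    have h := (hΨ.eval_jS hp₂ (1 : ℚˣ) 1 one_ne_zero).1
    simpa using h
  have hint : IsIntegral E (jS ℚ 1 1) := ⟨_, hAEmonic, by rw [← aeval_def]; exact hA0⟩
  have hmA := minpoly.dvd E (jS ℚ 1 1) hA0
  have hmB := minpoly.dvd E (jS ℚ 1 1) hB0
  -- pass to `ℂ((q))`
  set g : E →+* LaurentSeries ℂ :=
    (coeffMap (algebraMap ℚ ℂ)).comp (algebraMap E (LaurentSeries ℚ)) with hg
  have hιj : ∀ k : ℕ, coeffMap (algebraMap ℚ ℂ) (jS ℚ 1 k) = jS ℂ 1 k := by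
    intro k
    rw [coeffMap_jS]
    simp
  obtain ⟨ζ, hζ⟩ := exists_primitiveRoot_unit p hp.ne_zero
  obtain ⟨ξ, hξ⟩ := exists_primitiveRoot_unit p₂ hp₂.ne_zero
  have hfA := hΦ.fact ℂ ζ hζ
  have hfB := hΨ.fact ℂ ξ hξ
  unfold ModPolyFact at hfA hfB
  have hAg : (evalY (⟨jS ℚ 1 p, hmp⟩ : E) Φ).map g =
      (X - C (jS ℂ 1 1)) * ((X - C (jS ℂ 1 (p * p))) *
        ∏ b ∈ (Finset.range p).erase 0, (X - C (jS ℂ (ζ ^ b) 1))) := by
    rw [map_evalY]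
    have h1 : g (⟨jS ℚ 1 p, hmp⟩ : E) = jS ℂ 1 p := hιj p
    rw [h1, hfA, ← Finset.mul_prod_erase _ _ (Finset.mem_range.mpr hp.pos), pow_zero]
    ring
  have hBg : (evalY (⟨jS ℚ 1 p₂, hmp₂⟩ : E) Ψ).map g =
      (X - C (jS ℂ 1 (p₂ * p₂))) * ∏ c ∈ Finset.range p₂, (X - C (jS ℂ (ξ ^ c) 1)) := by
    rw [map_evalY]
    have h1 : g (⟨jS ℚ 1 p₂, hmp₂⟩ : E) = jS ℂ 1 p₂ := hιj p₂
    rw [h1, hfB]
  have hcopOf : ∀ {a b : LaurentSeries ℂ}, a ≠ b → IsCoprime (X - C a) (X - C b) :=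
    fun h => isCoprime_X_sub_C_of_isUnit_sub (sub_ne_zero.mpr h).isUnit
  have hpp : 1 < p * p := Nat.one_lt_mul_iff.mpr ⟨hp.pos, hp.pos, Or.inl hp.one_lt⟩
  have hpp₂ : 1 < p₂ * p₂ := Nat.one_lt_mul_iff.mpr ⟨hp₂.pos, hp₂.pos, Or.inl hp₂.one_lt⟩
  have hcop : IsCoprime ((X - C (jS ℂ 1 (p * p))) *
        ∏ b ∈ (Finset.range p).erase 0, (X - C (jS ℂ (ζ ^ b) 1)))
      ((X - C (jS ℂ 1 (p₂ * p₂))) * ∏ c ∈ Finset.range p₂, (X - C (jS ℂ (ξ ^ c) 1))) := by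
    refine IsCoprime.mul_left (IsCoprime.mul_right ?_ (IsCoprime.prod_right fun c _ => ?_))
      (IsCoprime.prod_left fun b hb => IsCoprime.mul_right ?_ (IsCoprime.prod_right fun c _ => ?_))
    · refine hcopOf (jS_pow_ne_jS_pow (by omega) (by omega) ?_)
      intro hdvd
      have h1 : p₂ ∣ p * p := (dvd_mul_right p₂ p₂).trans hdvd
      rcases (Nat.Prime.dvd_mul hp₂).mp h1 with h2 | h2 <;>
        exact hne ((Nat.prime_dvd_prime_iff_eq hp₂ hp).mp h2).symm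
    · exact hcopOf (jS_pow_ne_jS_unit _ hpp)
    · exact hcopOf (jS_pow_ne_jS_unit _ hpp₂).symm
    · refine hcopOf fun h => ?_
      have hb' := Finset.mem_erase.mp hb
      exact pow_ne_pow_of_primitiveRoots hp hp₂ hne hζ hξ hb'.1 (Finset.mem_range.mp hb'.2) c
        (jS_unit_injective h)
  have hm' : (minpoly E (jS ℚ 1 1)).map g ∣ X - C (jS ℂ 1 1) := by
    have h1 : (minpoly E (jS ℚ 1 1)).map g ∣ (X - C (jS ℂ 1 1)) * ((X - C (jS ℂ 1 (p * p))) *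
        ∏ b ∈ (Finset.range p).erase 0, (X - C (jS ℂ (ζ ^ b) 1))) := by
      rw [← hAg]
      exact Polynomial.map_dvd g hmA
    have h2 : (minpoly E (jS ℚ 1 1)).map g ∣
        (X - C (jS ℂ 1 (p₂ * p₂))) * ∏ c ∈ Finset.range p₂, (X - C (jS ℂ (ξ ^ c) 1)) := by
      rw [← hBg]
      exact Polynomial.map_dvd g hmB
    exact (hcop.symm.of_isCoprime_of_dvd_left h2).dvd_of_dvd_mul_right h1
  have hdeg : (minpoly E (jS ℚ 1 1)).natDegree ≤ 1 := by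
    have h := Polynomial.natDegree_le_of_dvd hm' (X_sub_C_ne_zero _)
    rwa [natDegree_map, natDegree_X_sub_C] at h
  have hdeg1 : (minpoly E (jS ℚ 1 1)).natDegree = 1 :=
    le_antisymm hdeg (minpoly.natDegree_pos hint)
  obtain ⟨x, hx⟩ := minpoly.natDegree_eq_one_iff.mp hdeg1
  rw [← hx]
  exact x.2

end Fermat.Agent.S28.H99
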