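import Mathlib
import Fermat.Prelude.Def_ModularCurve_X0

/-!
# S28: arithmetic of the Dedekind `ψ` function

`ψ(N p) = p ψ(N)` if `p ∣ N`, `(p + 1) ψ(N)` otherwise, and the product formula
`ψ(N) = ∏_{p ∣ N} (p + 1) p^{v_p(N) - 1}`.
-/

set_option autoImplicit false

open ModularCurve

namespace Fermat.Agent.S28.H99

theorem psi_mul_prime_of_dvd {N p : ℕ} (hp : p.Prime) (hN : N ≠ 0) (hpN : p ∣ N) :
    dedekindPsi (N * p) = p * dedekindPsi N := by
  have hset : (N * p).divisors.filter Squarefree = N.divisors.filter Squarefree := by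
    ext d
    simp only [Finset.mem_filter, Nat.mem_divisors, ne_eq, mul_eq_zero, not_or]
    constructor
    · rintro ⟨⟨hd, -⟩, hsq⟩
      refine ⟨⟨?_, hN⟩, hsq⟩
      by_cases hpd : p ∣ d
      · obtain ⟨d', rfl⟩ := hpd
        have hcop : p.Coprime d' := (Nat.squarefree_mul_iff.1 hsq).1
        have hd' : d' ∣ N := by
          rw [mul_comm N p] at hd
          exact (Nat.mul_dvd_mul_iff_left hp.pos).1 hd
        exact hcop.mul_dvd_of_dvd_of_dvd hpN hd'
      · exact (((Nat.Prime.coprime_iff_not_dvd hp).2 hpd).symm).dvd_of_dvd_mul_right hd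
    · rintro ⟨⟨hd, -⟩, hsq⟩
      exact ⟨⟨hd.mul_right p, hN, hp.ne_zero⟩, hsq⟩
  rw [dedekindPsi, dedekindPsi, hset, Finset.mul_sum]
  refine Finset.sum_congr rfl fun d hd => ?_
  have hdN : d ∣ N := (Nat.mem_divisors.1 (Finset.mem_filter.1 hd).1).1
  rw [mul_comm N p, Nat.mul_div_assoc p hdN]

theorem psi_mul_prime_of_not_dvd {N p : ℕ} (hp : p.Prime) (hN : N ≠ 0) (hpN : ¬ p ∣ N) :
    dedekindPsi (N * p) = (p + 1) * dedekindPsi N := by
  have hset : (N * p).divisors.filter Squarefree =
      N.divisors.filter Squarefree ∪ (N.divisors.filter Squarefree).image (· * p) := by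
    ext d
    simp only [Finset.mem_filter, Nat.mem_divisors, ne_eq, mul_eq_zero, not_or, Finset.mem_union,
      Finset.mem_image]
    constructor
    · rintro ⟨⟨hd, -⟩, hsq⟩
      by_cases hpd : p ∣ d
      · right
        obtain ⟨d', rfl⟩ := hpd
        have hd' : d' ∣ N := by
          rw [mul_comm N p] at hd
          exact (Nat.mul_dvd_mul_iff_left hp.pos).1 hd
        exact ⟨d', ⟨⟨hd', hN⟩, (Nat.squarefree_mul_iff.1 hsq).2.2⟩, mul_comm _ _⟩
      · left
        exact ⟨⟨(((Nat.Prime.coprime_iff_not_dvd hp).2 hpd).symm).dvd_of_dvd_mul_right hd, hN⟩,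
          hsq⟩
    · rintro (⟨⟨hd, -⟩, hsq⟩ | ⟨d', ⟨⟨hd', -⟩, hsq'⟩, rfl⟩)
      · exact ⟨⟨hd.mul_right p, hN, hp.ne_zero⟩, hsq⟩
      · refine ⟨⟨Nat.mul_dvd_mul_right hd' p, hN, hp.ne_zero⟩, ?_⟩
        have hcop : d'.Coprime p :=
          ((Nat.Prime.coprime_iff_not_dvd hp).2 fun h => hpN (h.trans hd')).symm
        exact (Nat.squarefree_mul hcop).2 ⟨hsq', hp.prime.squarefree⟩
  have hdisj : Disjoint (N.divisors.filter Squarefree)
      ((N.divisors.filter Squarefree).image (· * p)) := by
    rw [Finset.disjoint_left]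
    intro d hd hd2
    obtain ⟨d', -, rfl⟩ := Finset.mem_image.1 hd2
    exact hpN ((dvd_mul_left p d').trans (Nat.mem_divisors.1 (Finset.mem_filter.1 hd).1).1)
  rw [dedekindPsi, dedekindPsi, hset, Finset.sum_union hdisj,
    Finset.sum_image (fun x _ y _ h => Nat.eq_of_mul_eq_mul_right hp.pos h), add_mul, one_mul,
    Finset.mul_sum]
  congr 1
  · refine Finset.sum_congr rfl fun d hd => ?_
    have hdN : d ∣ N := (Nat.mem_divisors.1 (Finset.mem_filter.1 hd).1).1
    rw [mul_comm N p, Nat.mul_div_assoc p hdN]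
  · refine Finset.sum_congr rfl fun d _ => ?_
    rw [Nat.mul_div_mul_right _ _ hp.pos]

theorem psi_prime_mul {N p : ℕ} (hp : p.Prime) (hN : N ≠ 0) :
    dedekindPsi (p * N) = (if p ∣ N then p else p + 1) * dedekindPsi N := by
  rw [mul_comm p N]
  split_ifs with h
  · exact psi_mul_prime_of_dvd hp hN h
  · exact psi_mul_prime_of_not_dvd hp hN h

/-- The product `∏_{q ∣ N} (q + 1) q^{v_q(N) - 1}` under `N ↦ p N`. -/
theorem prodPsi_prime_mul {a p : ℕ} (hp : p.Prime) (ha : a ≠ 0) :
    ∏ q ∈ (p * a).primeFactors, (q + 1) * q ^ ((p * a).factorization q - 1) =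
      (if p ∣ a then p else p + 1) *
        ∏ q ∈ a.primeFactors, (q + 1) * q ^ (a.factorization q - 1) := by
  have hfact : ∀ q, (p * a).factorization q = (if q = p then 1 else 0) + a.factorization q := by
    intro q
    rw [Nat.factorization_mul hp.ne_zero ha, Finsupp.add_apply, hp.factorization,
      Finsupp.single_apply]
    simp only [eq_comm]
  have hpf : (p * a).primeFactors = insert p a.primeFactors := by
    rw [Nat.primeFactors_mul hp.ne_zero ha, hp.primeFactors, Finset.singleton_union]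
  by_cases hpa : p ∣ a
  · rw [if_pos hpa]
    have hmem : p ∈ a.primeFactors := Nat.mem_primeFactors.mpr ⟨hp, hpa, ha⟩
    rw [hpf, Finset.insert_eq_of_mem hmem, ← Finset.mul_prod_erase _ _ hmem,
      ← Finset.mul_prod_erase _ _ hmem]
    have hv : 0 < a.factorization p := hp.factorization_pos_of_dvd ha hpa
    have h1 : (p + 1) * p ^ ((p * a).factorization p - 1) =
        p * ((p + 1) * p ^ (a.factorization p - 1)) := by
      rw [hfact p, if_pos rfl]
      obtain ⟨v, hv'⟩ := Nat.exists_eq_succ_of_ne_zero hv.ne'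
      rw [hv']
      simp only [Nat.succ_eq_add_one, Nat.add_sub_cancel_left, Nat.add_sub_cancel]
      ring
    have h2 : ∏ q ∈ a.primeFactors.erase p, (q + 1) * q ^ ((p * a).factorization q - 1) =
        ∏ q ∈ a.primeFactors.erase p, (q + 1) * q ^ (a.factorization q - 1) := by
      refine Finset.prod_congr rfl fun q hq => ?_
      rw [hfact q, if_neg (Finset.ne_of_mem_erase hq), zero_add]
    rw [h1, h2, mul_assoc]
  · rw [if_neg hpa]
    have hmem : p ∉ a.primeFactors := fun h => hpa (Nat.dvd_of_mem_primeFactors h)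
    rw [hpf, Finset.prod_insert hmem]
    have h1 : (p + 1) * p ^ ((p * a).factorization p - 1) = p + 1 := by
      rw [hfact p, if_pos rfl, Nat.factorization_eq_zero_of_not_dvd hpa]
      simp
    have h2 : ∏ q ∈ a.primeFactors, (q + 1) * q ^ ((p * a).factorization q - 1) =
        ∏ q ∈ a.primeFactors, (q + 1) * q ^ (a.factorization q - 1) := by
      refine Finset.prod_congr rfl fun q hq => ?_
      have hqp : q ≠ p := fun h => hmem (h ▸ hq)
      rw [hfact q, if_neg hqp, zero_add]
    rw [h1, h2]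

/-- **Product formula** for the Dedekind `ψ` function. -/
theorem prod_primeFactors_eq_dedekindPsi (N : ℕ) (hN : N ≠ 0) :
    ∏ p ∈ N.primeFactors, (p + 1) * p ^ (N.factorization p - 1) = ModularCurve.dedekindPsi N := by
  revert hN
  refine induction_on_primes (motive := fun n => n ≠ 0 →
    ∏ p ∈ n.primeFactors, (p + 1) * p ^ (n.factorization p - 1) = ModularCurve.dedekindPsi n)
    ?_ ?_ ?_ N
  · intro h
    exact absurd rfl h
  · intro _
    simp
  · intro p a hp ih hpa
    have ha : a ≠ 0 := right_ne_zero_of_mul hpa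
    rw [prodPsi_prime_mul hp ha, psi_prime_mul hp ha, ih ha]

end Fermat.Agent.S28.H99
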