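import Mathlib
import Fermat.Prelude.Def_ModularCurve_X0
import Fermat.Agent.S28.H99.Psi

/-!
# S28, package M4b: the characteristic-zero degree bound (abstract tower argument)

`[ℚ(j(q^d) : d ∣ N) : ℚ(j(q^N))] ≤ ψ(N)`, from two kinds of input about the formal `j`-series:

* `ModRel p`: a polynomial `Φ ∈ ℚ[Y][X]`, monic of degree `p + 1` in `X`, with
  `Φ(j(q), j(q^p)) = 0` and `Φ(j(q^{p²}), j(q^p)) = 0`;
* `jq ∈ ℚ(j(q^p), j(q^{p₂}))` for distinct primes `p`, `p₂`.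
-/

set_option autoImplicit false

open IntermediateField Polynomial ModularCurve

noncomputable section

namespace Fermat.Agent.S28.H99

local notation "𝕃" => LaurentSeries ℚ

/-! ### Generic field theory -/

/-- Adjoining a root of a nonzero polynomial of degree `n` with coefficients in `E` multiplies the
degree by at most `n`. -/
theorem relrank_sup_adjoin_simple_le {F 𝕂 : Type*} [Field F] [Field 𝕂] [Algebra F 𝕂]
    (E : IntermediateField F 𝕂) (y : 𝕂) (P : Polynomial E) (hP : P ≠ 0)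
    (hy : Polynomial.aeval y P = 0) :
    E.relrank (E ⊔ F⟮y⟯) ≤ P.natDegree := by
  have h1 : E ⊔ F⟮y⟯ = (IntermediateField.adjoin E ({y} : Set 𝕂)).restrictScalars F :=
    (restrictScalars_adjoin_eq_sup F E ({y} : Set 𝕂)).symm
  have hle : E ≤ (IntermediateField.adjoin E ({y} : Set 𝕂)).restrictScalars F := by
    rw [← h1]; exact le_sup_left
  have hext : extendScalars hle = IntermediateField.adjoin E ({y} : Set 𝕂) :=
    restrictScalars_injective F rfl
  have hint : IsIntegral E y := IsAlgebraic.isIntegral ⟨P, hP, hy⟩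
  rw [h1, relrank_eq_rank_of_le hle, hext]
  have hfd : FiniteDimensional E (IntermediateField.adjoin E ({y} : Set 𝕂)) :=
    IntermediateField.adjoin.finiteDimensional hint
  rw [← Module.finrank_eq_rank, IntermediateField.adjoin.finrank hint]
  have hdvd : minpoly E y ∣ P := minpoly.dvd E y hy
  exact_mod_cast Polynomial.natDegree_le_of_dvd hdvd hP

theorem relrank_ne_zero {F 𝕂 : Type*} [Field F] [Field 𝕂] [Algebra F 𝕂]
    (A B : IntermediateField F 𝕂) : A.relrank B ≠ 0 := by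
  unfold IntermediateField.relrank Subfield.relrank
  exact (rank_pos).ne'

/-- Monotonicity of the relative rank in the second argument. -/
theorem relrank_le_of_le {F 𝕂 : Type*} [Field F] [Field 𝕂] [Algebra F 𝕂]
    {A B C : IntermediateField F 𝕂} (hAB : A ≤ B) (hBC : B ≤ C) : A.relrank B ≤ A.relrank C := by
  rw [← relrank_mul_relrank hAB hBC]
  exact Cardinal.le_mul_right (relrank_ne_zero B C)

/-! ### The series `j(q^m)` -/

/-- `j(q^m)` as a Laurent series (junk value `0` for `m = 0`). -/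
def Jm (m : ℕ) : 𝕃 := if h : m = 0 then 0 else @qExpand ℚ _ m ⟨h⟩ jq

theorem Jm_eq (m : ℕ) [NeZero m] : Jm m = qExpand ℚ m jq := dif_neg (NeZero.ne m)

theorem Jm_one : Jm 1 = jq := by rw [Jm_eq]; exact qExpand_one_apply jq

theorem qExpandₐ_Jm (m d : ℕ) [NeZero m] [NeZero d] : qExpandₐ m (Jm d) = Jm (m * d) := by
  have : NeZero (m * d) := ⟨Nat.mul_ne_zero (NeZero.ne m) (NeZero.ne d)⟩
  rw [Jm_eq, Jm_eq, qExpandₐ_apply, qExpand_qExpand]

theorem qExpandₐ_jq (m : ℕ) [NeZero m] : qExpandₐ m jq = Jm m := by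
  rw [Jm_eq, qExpandₐ_apply]

theorem qExpandₐ_injective (m : ℕ) [NeZero m] : Function.Injective (qExpandₐ m) :=
  qExpand_injective m

theorem jq_ne_Jm {n : ℕ} (hn : 1 < n) : jq ≠ Jm n := by
  have : NeZero n := ⟨by omega⟩
  intro h
  have h1 : (Jm n).coeff (-1 : ℤ) = 0 := by
    rw [Jm_eq]
    refine qExpand_coeff_of_not_dvd n jq ?_
    intro hdvd
    have h2 : (n : ℤ) ∣ 1 := (dvd_neg).mp hdvd
    have h3 : (n : ℤ) ≤ 1 := Int.le_of_dvd one_pos h2
    omega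
  rw [← h, coeff_jq_neg_one] at h1
  exact one_ne_zero h1

/-! ### The fields `ℚ(j(q^{m d}) : d ∣ N)` -/

/-- The generators `j(q^{m d})`, `d ∣ N`. -/
def divSet (m N : ℕ) : Set 𝕃 := {x | ∃ d, d ∣ N ∧ x = Jm (m * d)}

/-- The field `ℚ(j(q^{m d}) : d ∣ N)`. -/
def FullM (m N : ℕ) : IntermediateField ℚ 𝕃 := adjoin ℚ (divSet m N)

theorem Jm_mem_fullM {m N d : ℕ} (hd : d ∣ N) : Jm (m * d) ∈ FullM m N :=
  subset_adjoin ℚ _ ⟨d, hd, rfl⟩

theorem fullM_one_eq (N : ℕ) [NeZero N] : FullM 1 N = modularFunctionFieldFull N := by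
  unfold FullM modularFunctionFieldFull
  congr 1
  ext x
  constructor
  · rintro ⟨d, hd, rfl⟩
    have : NeZero d := ⟨ne_zero_of_dvd_ne_zero (NeZero.ne N) hd⟩
    exact ⟨d, inferInstance, hd, by rw [one_mul, Jm_eq]⟩
  · rintro ⟨d, hne, hd, rfl⟩
    have := hne
    exact ⟨d, hd, by rw [one_mul, Jm_eq]⟩

theorem map_fullM (m k N : ℕ) [NeZero m] [NeZero k] [NeZero N] :
    (FullM k N).map (qExpandₐ m) = FullM (m * k) N := by
  unfold FullM
  rw [adjoin_map]
  congr 1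
  ext x
  constructor
  · rintro ⟨_, ⟨d, hd, rfl⟩, rfl⟩
    have : NeZero d := ⟨ne_zero_of_dvd_ne_zero (NeZero.ne N) hd⟩
    have : NeZero (k * d) := ⟨Nat.mul_ne_zero (NeZero.ne k) (NeZero.ne d)⟩
    exact ⟨d, hd, by rw [qExpandₐ_Jm, mul_assoc]⟩
  · rintro ⟨d, hd, rfl⟩
    have : NeZero d := ⟨ne_zero_of_dvd_ne_zero (NeZero.ne N) hd⟩
    have : NeZero (k * d) := ⟨Nat.mul_ne_zero (NeZero.ne k) (NeZero.ne d)⟩
    exact ⟨Jm (k * d), ⟨d, hd, rfl⟩, by rw [qExpandₐ_Jm, mul_assoc]⟩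

theorem map_adjoin_Jm (m n : ℕ) [NeZero m] [NeZero n] :
    (ℚ⟮Jm n⟯).map (qExpandₐ m) = ℚ⟮Jm (m * n)⟯ := by
  rw [adjoin_map, Set.image_singleton, qExpandₐ_Jm]

/-! ### The inputs -/

/-- Evaluation `ℚ[Y] → ℚ((q))`, `Y ↦ y`. -/
def evY (y : 𝕃) : Polynomial ℚ →+* 𝕃 := (Polynomial.aeval (R := ℚ) y).toRingHom

@[simp] theorem evY_X (y : 𝕃) : evY y Polynomial.X = y := by simp [evY]

@[simp] theorem evY_C (y : 𝕃) (a : ℚ) : evY y (Polynomial.C a) = algebraMap ℚ 𝕃 a := by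
  simp [evY]

/-- The modular relation at `p`: a polynomial `Φ ∈ ℚ[Y][X]`, monic of degree `p + 1` in `X`, with
`Φ(j(q), j(q^p)) = 0` and `Φ(j(q^{p²}), j(q^p)) = 0`. -/
def ModRel (p : ℕ) : Prop :=
  ∃ Φ : Polynomial (Polynomial ℚ), Φ.Monic ∧ Φ.natDegree = p + 1 ∧
    (Φ.map (evY (Jm p))).eval jq = 0 ∧ (Φ.map (evY (Jm p))).eval (Jm (p ^ 2)) = 0

theorem comp_evY_Jm (m d : ℕ) [NeZero m] [NeZero d] :
    ((qExpandₐ m : 𝕃 →ₐ[ℚ] 𝕃) : 𝕃 →+* 𝕃).comp (evY (Jm d)) = evY (Jm (m * d)) := by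
  refine Polynomial.ringHom_ext' (Subsingleton.elim _ _) ?_
  rw [RingHom.comp_apply, evY_X, evY_X]
  exact qExpandₐ_Jm m d

/-- The modular relation transported by `q ↦ q^m`. -/
theorem ModRel.transport {p : ℕ} (h : ModRel p) (hp : p ≠ 0) (m : ℕ) (hm : m ≠ 0) :
    ∃ Φ : Polynomial (Polynomial ℚ), Φ.Monic ∧ Φ.natDegree = p + 1 ∧
      (Φ.map (evY (Jm (m * p)))).eval (Jm m) = 0 ∧
      (Φ.map (evY (Jm (m * p)))).eval (Jm (m * p ^ 2)) = 0 := by
  have : NeZero p := ⟨hp⟩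
  have : NeZero m := ⟨hm⟩
  have : NeZero (p ^ 2) := ⟨pow_ne_zero 2 hp⟩
  obtain ⟨Φ, hmonic, hdeg, h1, h2⟩ := h
  have key : ∀ x : 𝕃, qExpandₐ m ((Φ.map (evY (Jm p))).eval x) =
      (Φ.map (evY (Jm (m * p)))).eval (qExpandₐ m x) := by
    intro x
    rw [Polynomial.eval_map, Polynomial.eval_map, ← comp_evY_Jm m p]
    exact Polynomial.hom_eval₂ Φ _ ((qExpandₐ m : 𝕃 →ₐ[ℚ] 𝕃) : 𝕃 →+* 𝕃) x
  refine ⟨Φ, hmonic, hdeg, ?_, ?_⟩
  · rw [← qExpandₐ_jq m, ← key, h1, map_zero]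
  · rw [← qExpandₐ_Jm m (p ^ 2), ← key, h2, map_zero]

/-- The mixed relation transported by `q ↦ q^m`. -/
theorem mem_adjoin_pair_transport {p p₂ : ℕ} (hp : p ≠ 0) (hp₂ : p₂ ≠ 0)
    (h : jq ∈ adjoin ℚ ({Jm p, Jm p₂} : Set 𝕃)) (m : ℕ) (hm : m ≠ 0) :
    Jm m ∈ adjoin ℚ ({Jm (m * p), Jm (m * p₂)} : Set 𝕃) := by
  have : NeZero p := ⟨hp⟩
  have : NeZero p₂ := ⟨hp₂⟩
  have : NeZero m := ⟨hm⟩
  have h1 : qExpandₐ m jq ∈ (adjoin ℚ ({Jm p, Jm p₂} : Set 𝕃)).map (qExpandₐ m) :=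
    ⟨jq, h, rfl⟩
  rw [adjoin_map, Set.image_pair, qExpandₐ_Jm, qExpandₐ_Jm, qExpandₐ_jq] at h1
  exact h1

/-! ### The step `N ↦ p N` -/

/-- Every `j(q^d)`, `d ∣ N'`, lies in any field containing `j(q^{N'})` and all `j(q^{p d})`,
`d ∣ N'`, provided `p ∤ N'` (uses the mixed relations for `p` and the primes dividing `N'`). -/
theorem Jm_mem_of_mix {p : ℕ} (hp : p.Prime)
    (hmix : ∀ p₂ : ℕ, p₂.Prime → p₂ ≠ p → jq ∈ adjoin ℚ ({Jm p, Jm p₂} : Set 𝕃))
    {N' : ℕ} (hN' : N' ≠ 0) (hpN' : ¬ p ∣ N') (K : IntermediateField ℚ 𝕃)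
    (hy : Jm N' ∈ K) (hE : ∀ d, d ∣ N' → Jm (d * p) ∈ K) :
    ∀ e d : ℕ, d * e = N' → Jm d ∈ K := by
  intro e
  induction e using Nat.strong_induction_on with
  | _ e ih =>
    intro d hde
    by_cases he : e = 1
    · subst he
      rw [mul_one] at hde
      subst hde
      exact hy
    · have hp₂ : (e.minFac).Prime := Nat.minFac_prime he
      obtain ⟨e', he'⟩ := Nat.minFac_dvd e
      have hepos : e ≠ 0 := by
        rintro rfl
        rw [mul_zero] at hde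
        exact hN' hde.symm
      have he'pos : e' ≠ 0 := by
        rintro rfl
        rw [mul_zero] at he'
        exact hepos he'
      have hlt : e' < e := by
        conv_rhs => rw [he']
        exact lt_mul_of_one_lt_left (Nat.pos_of_ne_zero he'pos) hp₂.one_lt
      have hne : e.minFac ≠ p := by
        intro h
        refine hpN' ⟨d * e', ?_⟩
        rw [← hde]
        conv_lhs => rw [he', h]
        ring
      have h1 : Jm (d * e.minFac) ∈ K := by
        refine ih e' hlt (d * e.minFac) ?_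
        rw [← hde]
        conv_rhs => rw [he']
        ring
      have h2 : Jm (d * p) ∈ K := hE d ⟨e, hde.symm⟩
      have hd : d ≠ 0 := by
        rintro rfl
        rw [zero_mul] at hde
        exact hN' hde.symm
      have h3 := mem_adjoin_pair_transport hp.ne_zero hp₂.ne_zero (hmix _ hp₂ hne) d hd
      have h4 : adjoin ℚ ({Jm (d * p), Jm (d * e.minFac)} : Set 𝕃) ≤ K := by
        rw [adjoin_le_iff]
        rintro x (rfl | rfl)
        · exact h2
        · exact h1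
      exact h4 h3

/-- The level-`pN` field is generated over the `q ↦ q^p`-image of the level-`N` field by the single
series `j(q^{N'})`, `N'` the prime-to-`p` part of `N`. -/
theorem fullM_le_sup {p : ℕ} (hp : p.Prime)
    (hmix : ∀ p₂ : ℕ, p₂.Prime → p₂ ≠ p → jq ∈ adjoin ℚ ({Jm p, Jm p₂} : Set 𝕃))
    {N : ℕ} (hN : N ≠ 0) :
    FullM 1 (p * N) ≤ FullM p N ⊔ ℚ⟮Jm (ordCompl[p] N)⟯ := by
  have hN'dvd : ordCompl[p] N ∣ N := Nat.ordCompl_dvd N p
  have hN' : ordCompl[p] N ≠ 0 := ne_zero_of_dvd_ne_zero hN hN'dvd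
  have hpN' : ¬ p ∣ ordCompl[p] N := Nat.not_dvd_ordCompl hp hN
  have hy : Jm (ordCompl[p] N) ∈ FullM p N ⊔ ℚ⟮Jm (ordCompl[p] N)⟯ :=
    (le_sup_right : ℚ⟮Jm (ordCompl[p] N)⟯ ≤ _) (mem_adjoin_simple_self ℚ _)
  have hE : ∀ d, d ∣ ordCompl[p] N → Jm (d * p) ∈ FullM p N ⊔ ℚ⟮Jm (ordCompl[p] N)⟯ := by
    intro d hd
    refine (le_sup_left : FullM p N ≤ _) ?_
    rw [mul_comm]
    exact Jm_mem_fullM (hd.trans hN'dvd)
  have key := Jm_mem_of_mix hp hmix hN' hpN' _ hy hE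
  unfold FullM at *
  rw [adjoin_le_iff]
  rintro x ⟨d, hd, rfl⟩
  rw [one_mul]
  by_cases hpd : p ∣ d
  · obtain ⟨d', rfl⟩ := hpd
    refine (le_sup_left : adjoin ℚ (divSet p N) ≤ _) ?_
    exact subset_adjoin ℚ _ ⟨d', Nat.dvd_of_mul_dvd_mul_left hp.pos hd, rfl⟩
  · have hcop : Nat.Coprime d p := ((Nat.Prime.coprime_iff_not_dvd hp).mpr hpd).symm
    have hdN : d ∣ N := (Nat.Coprime.dvd_mul_left hcop).mp hd
    have hdN' : d ∣ ordCompl[p] N := by
      have h := Nat.ordCompl_dvd_ordCompl_of_dvd hdN p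
      rwa [(Nat.ordCompl_eq_self_iff_zero_or_not_dvd d hp).mpr (Or.inr hpd)] at h
    obtain ⟨e, he⟩ := hdN'
    exact key e d he.symm

/-- The degree of `j(q^{N'})` over the image of the level-`N` field. -/
theorem relrank_top_le {p : ℕ} (hp : p.Prime) (hrel : ModRel p) {N : ℕ} (hN : N ≠ 0) :
    (FullM p N).relrank (FullM p N ⊔ ℚ⟮Jm (ordCompl[p] N)⟯) ≤
      ((if p ∣ N then p else p + 1 : ℕ) : Cardinal) := by
  have hN'dvd : ordCompl[p] N ∣ N := Nat.ordCompl_dvd N p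
  have hN' : ordCompl[p] N ≠ 0 := ne_zero_of_dvd_ne_zero hN hN'dvd
  have : NeZero (ordCompl[p] N) := ⟨hN'⟩
  have : NeZero (p ^ 2) := ⟨pow_ne_zero 2 hp.ne_zero⟩
  obtain ⟨Φ, hmonic, hdeg, h1, h2⟩ := hrel.transport hp.ne_zero (ordCompl[p] N) hN'
  have hmem : Jm (ordCompl[p] N * p) ∈ FullM p N := by
    rw [mul_comm]
    exact Jm_mem_fullM hN'dvd
  have hcomp : (algebraMap (FullM p N) 𝕃).comp
      (Polynomial.aeval (R := ℚ) (⟨Jm (ordCompl[p] N * p), hmem⟩ : FullM p N)).toRingHom =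
      evY (Jm (ordCompl[p] N * p)) := by
    refine Polynomial.ringHom_ext' (Subsingleton.elim _ _) ?_
    simp [evY]
  set P : Polynomial (FullM p N) := Φ.map
    (Polynomial.aeval (R := ℚ) (⟨Jm (ordCompl[p] N * p), hmem⟩ : FullM p N)).toRingHom with hPdef
  have hPmonic : P.Monic := hmonic.map _
  have hPdeg : P.natDegree = p + 1 := by rw [hPdef, hmonic.natDegree_map, hdeg]
  have hPmap : P.map (algebraMap (FullM p N) 𝕃) = Φ.map (evY (Jm (ordCompl[p] N * p))) := by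
    rw [hPdef, Polynomial.map_map, hcomp]
  have hroot : Polynomial.aeval (Jm (ordCompl[p] N)) P = 0 := by
    rw [Polynomial.aeval_def, Polynomial.eval₂_eq_eval_map, hPmap]
    exact h1
  by_cases hpN : p ∣ N
  · rw [if_pos hpN]
    have hmem2 : Jm (ordCompl[p] N * p ^ 2) ∈ FullM p N := by
      have hdvd : ordCompl[p] N * p ∣ N := by
        have hpos : 0 < N.factorization p := hp.factorization_pos_of_dvd hN hpN
        have h := Nat.ordProj_mul_ordCompl_eq_self N p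
        have h3 : p ∣ ordProj[p] N := dvd_pow_self p hpos.ne'
        calc ordCompl[p] N * p ∣ ordCompl[p] N * ordProj[p] N := Nat.mul_dvd_mul_left _ h3
          _ = N := by rw [mul_comm, h]
      have h := Jm_mem_fullM (m := p) hdvd
      have he : p * (ordCompl[p] N * p) = ordCompl[p] N * p ^ 2 := by ring
      rwa [he] at h
    have hrootE : P.IsRoot (⟨Jm (ordCompl[p] N * p ^ 2), hmem2⟩ : FullM p N) := by
      have h : algebraMap (FullM p N) 𝕃
          (P.eval (⟨Jm (ordCompl[p] N * p ^ 2), hmem2⟩ : FullM p N)) = 0 := by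
        rw [← Polynomial.eval₂_hom, Polynomial.eval₂_eq_eval_map, hPmap]
        exact h2
      exact (map_eq_zero_iff _ (algebraMap (FullM p N) 𝕃).injective).mp h
    have hPQ := Polynomial.mul_divByMonic_eq_iff_isRoot.mpr hrootE
    set Q := P /ₘ (Polynomial.X - Polynomial.C
      (⟨Jm (ordCompl[p] N * p ^ 2), hmem2⟩ : FullM p N)) with hQdef
    have hQdeg : Q.natDegree = p := by
      rw [hQdef, Polynomial.natDegree_divByMonic P (Polynomial.monic_X_sub_C _), hPdeg,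
        Polynomial.natDegree_X_sub_C]
      rfl
    have hQ0 : Q ≠ 0 := by
      rintro hQ
      rw [hQ, mul_zero] at hPQ
      exact hPmonic.ne_zero hPQ.symm
    have hne : Jm (ordCompl[p] N) ≠ Jm (ordCompl[p] N * p ^ 2) := by
      intro h
      rw [← qExpandₐ_jq (ordCompl[p] N), ← qExpandₐ_Jm (ordCompl[p] N) (p ^ 2)] at h
      refine jq_ne_Jm (n := p ^ 2) ?_ (qExpandₐ_injective _ h)
      exact Nat.one_lt_pow (by norm_num) hp.one_lt
    have hrootQ : Polynomial.aeval (Jm (ordCompl[p] N)) Q = 0 := by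
      rw [← hPQ, map_mul] at hroot
      rcases mul_eq_zero.mp hroot with h | h
      · exfalso
        apply hne
        have h' : Jm (ordCompl[p] N) - Jm (ordCompl[p] N * p ^ 2) = 0 := by simpa using h
        exact sub_eq_zero.mp h'
      · exact h
    have := relrank_sup_adjoin_simple_le (FullM p N) (Jm (ordCompl[p] N)) Q hQ0 hrootQ
    rwa [hQdeg] at this
  · rw [if_neg hpN]
    have := relrank_sup_adjoin_simple_le (FullM p N) (Jm (ordCompl[p] N)) P hPmonic.ne_zero hroot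
    rwa [hPdeg] at this

/-- **The step.** `[F_{pN} : ℚ(j(q^{pN}))] ≤ [F_N : ℚ(j(q^N))] · (p or p + 1)`. -/
theorem relrank_step {p : ℕ} (hp : p.Prime) (hrel : ModRel p)
    (hmix : ∀ p₂ : ℕ, p₂.Prime → p₂ ≠ p → jq ∈ adjoin ℚ ({Jm p, Jm p₂} : Set 𝕃))
    {N : ℕ} (hN : N ≠ 0) :
    (ℚ⟮Jm (p * N)⟯).relrank (FullM 1 (p * N)) ≤
      (ℚ⟮Jm N⟯).relrank (FullM 1 N) * ((if p ∣ N then p else p + 1 : ℕ) : Cardinal) := by
  have : NeZero p := ⟨hp.ne_zero⟩
  have : NeZero N := ⟨hN⟩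
  have haE : ℚ⟮Jm (p * N)⟯ ≤ FullM p N := by
    rw [adjoin_simple_le_iff]
    exact Jm_mem_fullM dvd_rfl
  have hET : FullM p N ≤ FullM 1 (p * N) := by
    unfold FullM
    rw [adjoin_le_iff]
    rintro x ⟨d, hd, rfl⟩
    exact subset_adjoin ℚ _ ⟨p * d, Nat.mul_dvd_mul_left p hd, by rw [one_mul]⟩
  have hTK := fullM_le_sup hp hmix hN
  have hbot : (ℚ⟮Jm (p * N)⟯).relrank (FullM p N) = (ℚ⟮Jm N⟯).relrank (FullM 1 N) := by
    have h1 := map_adjoin_Jm p N
    have h2 := map_fullM p 1 N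
    rw [mul_one] at h2
    rw [← h1, ← h2]
    exact relrank_map_map _ _ _
  calc (ℚ⟮Jm (p * N)⟯).relrank (FullM 1 (p * N))
      = (ℚ⟮Jm (p * N)⟯).relrank (FullM p N) * (FullM p N).relrank (FullM 1 (p * N)) :=
        (relrank_mul_relrank haE hET).symm
    _ ≤ (ℚ⟮Jm N⟯).relrank (FullM 1 N) * ((if p ∣ N then p else p + 1 : ℕ) : Cardinal) := by
        rw [hbot]
        exact mul_le_mul' le_rfl ((relrank_le_of_le hET hTK).trans (relrank_top_le hp hrel hN))

/-! ### The upper bound -/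

/-- **Abstract upper bound**: `[ℚ(j(q^d) : d ∣ N) : ℚ(j(q^N))] ≤ ψ(N)`, from the modular relations
and the mixed relations. -/
theorem relrank_fullM_le (hrel : ∀ p : ℕ, p.Prime → ModRel p)
    (hmix : ∀ p p₂ : ℕ, p.Prime → p₂.Prime → p₂ ≠ p → jq ∈ adjoin ℚ ({Jm p, Jm p₂} : Set 𝕃))
    (N : ℕ) (hN : N ≠ 0) :
    (ℚ⟮Jm N⟯).relrank (FullM 1 N) ≤ (dedekindPsi N : Cardinal) := by
  revert hN
  refine induction_on_primes (motive := fun n => n ≠ 0 →
    (ℚ⟮Jm n⟯).relrank (FullM 1 n) ≤ (dedekindPsi n : Cardinal)) ?_ ?_ ?_ N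
  · intro h
    exact absurd rfl h
  · intro _
    have h : FullM 1 1 ≤ ℚ⟮Jm 1⟯ := by
      unfold FullM
      rw [adjoin_le_iff]
      rintro x ⟨d, hd, rfl⟩
      rw [Nat.dvd_one] at hd
      subst hd
      exact mem_adjoin_simple_self ℚ _
    rw [relrank_eq_one_iff.mpr h, dedekindPsi_one, Nat.cast_one]
  · intro p a hp ih hpa
    have ha : a ≠ 0 := right_ne_zero_of_mul hpa
    calc (ℚ⟮Jm (p * a)⟯).relrank (FullM 1 (p * a))
        ≤ (ℚ⟮Jm a⟯).relrank (FullM 1 a) * ((if p ∣ a then p else p + 1 : ℕ) : Cardinal) :=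
          relrank_step hp (hrel p hp) (fun p₂ hp₂ hne => hmix p p₂ hp hp₂ hne) ha
      _ ≤ (dedekindPsi a : Cardinal) * ((if p ∣ a then p else p + 1 : ℕ) : Cardinal) :=
          mul_le_mul' (ih ha) le_rfl
      _ = (dedekindPsi (p * a) : Cardinal) := by
          rw [psi_prime_mul hp ha, Nat.cast_mul, mul_comm]

/-- The upper bound in the canonical shape, from the abstract inputs. -/
theorem relfinrank_le_dedekindPsi_of (hrel : ∀ p : ℕ, p.Prime → ModRel p)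
    (hmix : ∀ p p₂ : ℕ, p.Prime → p₂.Prime → p₂ ≠ p → jq ∈ adjoin ℚ ({Jm p, Jm p₂} : Set 𝕃))
    (N : ℕ) [NeZero N] :
    0 < IntermediateField.relfinrank (IntermediateField.adjoin ℚ {jqN N})
      (modularFunctionFieldFull N) ∧
    IntermediateField.relfinrank (IntermediateField.adjoin ℚ {jqN N})
      (modularFunctionFieldFull N) ≤ dedekindPsi N := by
  have h := relrank_fullM_le hrel hmix N (NeZero.ne N)
  rw [fullM_one_eq, Jm_eq] at h
  have hlt : (ℚ⟮qExpand ℚ N jq⟯).relrank (modularFunctionFieldFull N) < Cardinal.aleph0 :=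
    h.trans_lt Cardinal.natCast_lt_aleph0
  constructor
  · rw [relfinrank_eq_toNat_relrank]
    exact Cardinal.toNat_pos.mpr ⟨relrank_ne_zero _ _, hlt⟩
  · rw [relfinrank_eq_toNat_relrank]
    have := Cardinal.toNat_le_toNat h Cardinal.natCast_lt_aleph0
    rwa [Cardinal.toNat_natCast] at this

end Fermat.Agent.S28.H99
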