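import Mathlib
import Fermat.Agent.S28.Formal
import Fermat.Agent.S28.H99.Upper
import Fermat.Agent.S28.H99.Mix

/-!
# S28, package M4b: the characteristic-zero upper bound, final form

`0 < [F_N : ℚ(j(q^N))] ≤ ψ(N)` for `F_N = ℚ(j(q^d) : d ∣ N) ⊆ ℚ((q))`, from the existence of
modular polynomials (`HasModPolys`).
-/

set_option autoImplicit false

open IntermediateField Polynomial ModularCurve

noncomputable section

namespace Fermat.Agent.S28.H99

theorem jS_one_eq_Jm (m : ℕ) (hm : m ≠ 0) : jS ℚ 1 m = Jm m := by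
  have : NeZero m := ⟨hm⟩
  rw [jS_one_eq_jqNModC, Jm_eq]
  rfl

theorem evY_comp_mapRingHom (y : LaurentSeries ℚ) :
    (evY y).comp (Polynomial.mapRingHom (Int.castRingHom ℚ)) =
      Polynomial.eval₂RingHom (Int.castRingHom (LaurentSeries ℚ)) y := by
  apply Polynomial.ringHom_ext
  · intro a
    simp [evY]
  · simp [evY]

/-- The modular relation in the shape used by the tower, from a modular polynomial. -/
theorem modRel_of_isModPoly {p : ℕ} (hp : p.Prime) {Φ : Polynomial (Polynomial ℤ)}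
    (hΦ : IsModPoly p Φ) : ModRel p := by
  refine ⟨Φ.map (Polynomial.mapRingHom (Int.castRingHom ℚ)), hΦ.monic.map _, ?_, ?_, ?_⟩
  · rw [hΦ.monic.natDegree_map, hΦ.natDegree_eq]
  · rw [Polynomial.map_map, evY_comp_mapRingHom]
    have h := (hΦ.eval_jS hp (1 : ℚˣ) 1 one_ne_zero).1
    rw [one_pow, one_mul, jS_one_eq_Jm p hp.ne_zero, jS_one_eq_Jm 1 one_ne_zero, Jm_one, evalY,
      coe_mapRingHom] at h
    exact h
  · rw [Polynomial.map_map, evY_comp_mapRingHom]
    have h := (hΦ.eval_jS hp (1 : ℚˣ) p hp.ne_zero).2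
    rw [one_pow, jS_one_eq_Jm p hp.ne_zero,
      jS_one_eq_Jm (p * p) (Nat.mul_ne_zero hp.ne_zero hp.ne_zero), ← pow_two, evalY,
      coe_mapRingHom] at h
    exact h

/-- **M4b.** The characteristic-zero upper bound `0 < [F_N : ℚ(j(q^N))] ≤ ψ(N)`. -/
theorem relfinrank_le_dedekindPsi (hmod : HasModPolys) (N : ℕ) [NeZero N] :
    0 < IntermediateField.relfinrank (IntermediateField.adjoin ℚ {jqN N})
      (modularFunctionFieldFull N) ∧
    IntermediateField.relfinrank (IntermediateField.adjoin ℚ {jqN N})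
      (modularFunctionFieldFull N) ≤ dedekindPsi N := by
  refine relfinrank_le_dedekindPsi_of (fun p hp => ?_) (fun p p₂ hp hp₂ hne => ?_) N
  · obtain ⟨Φ, hΦ⟩ := hmod p hp
    exact modRel_of_isModPoly hp hΦ
  · obtain ⟨Φ, hΦ⟩ := hmod p hp
    obtain ⟨Ψ, hΨ⟩ := hmod p₂ hp₂
    have h := jS_mem_adjoin_pair hp hp₂ hne.symm hΦ hΨ
    rwa [jS_one_eq_Jm 1 one_ne_zero, Jm_one, jS_one_eq_Jm p hp.ne_zero,
      jS_one_eq_Jm p₂ hp₂.ne_zero] at h

end Fermat.Agent.S28.H99
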